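import Fermat.Agent.GalRep.Span
import Fermat.Agent.GalRep.Approx
import Fermat.Prelude.Def_GaloisRep_Adic
import Mathlib.RingTheory.Filtration
import Mathlib.LinearAlgebra.Matrix.Charpoly.Coeff
import Mathlib.Algebra.Algebra.Rat

/-!
# Adic representations with the same characteristic polynomials at Frobenius elements
-/

set_option autoImplicit false

namespace FLTAgent.LevelDrop

open Polynomial

local notation "Γℚ" => AlgebraicClosure ℚ ≃ₐ[ℚ] AlgebraicClosure ℚ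

/-- `F` only depends on the restriction to some number field. -/
def IsLevelFunction {X : Type*} (F : Γℚ → X) : Prop :=
  ∃ L : IntermediateField ℚ (AlgebraicClosure ℚ), FiniteDimensional ℚ L ∧
    ∀ g σ : Γℚ, (∀ x ∈ L, σ x = g x) → F σ = F g

theorem eq_of_frobenius (hd : FLTAgent.GalRep.FrobeniusDense) {X : Type*} (F G : Γℚ → X)
    (hF : IsLevelFunction F) (hG : IsLevelFunction G) (T : Finset ℕ)
    (h : ∀ ℓ : ℕ, ℓ.Prime → ℓ ∉ T → ∀ A : ValuationSubring (AlgebraicClosure ℚ),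
      A.LiesOverPrime ℓ → ∀ σ : Γℚ, A.IsFrobeniusAt σ ℓ → F σ = G σ) (g : Γℚ) : F g = G g := by
  obtain ⟨L₁, hL₁, h₁⟩ := hF
  obtain ⟨L₂, hL₂, h₂⟩ := hG
  obtain ⟨ℓ, hℓ, hℓT, A, hA, σ, hσ, hag⟩ := hd (L₁ ⊔ L₂) inferInstance g T
  rw [← h₁ g σ fun x hx => hag x ((le_sup_left : L₁ ≤ L₁ ⊔ L₂) hx),
    ← h₂ g σ fun x hx => hag x ((le_sup_right : L₂ ≤ L₁ ⊔ L₂) hx)]
  exact h ℓ hℓ hℓT A hA σ hσ

variable {A : Type} [CommRing A] [IsLocalRing A]

theorem charpoly_eq_repMat (ρ : GaloisRepAdic A) (g : Γℚ) :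
    LinearMap.charpoly (ρ.ρ g) = (FLTAgent.GalRep.repMat ρ g).charpoly :=
  (LinearMap.charpoly_toMatrix (ρ.ρ g) (FLTAgent.GalRep.repBasis ρ)).symm

theorem isLevelFunction_charpoly (ρ : GaloisRepAdic A) (n : ℕ) :
    IsLevelFunction fun g => (LinearMap.charpoly (ρ.ρ g)).map
      (Ideal.Quotient.mk (IsLocalRing.maximalIdeal A ^ n)) := by
  obtain ⟨L, hL, h⟩ := ρ.isAdicContinuous n
  refine ⟨L, hL, fun g σ hag => ?_⟩
  set π := Ideal.Quotient.mk (IsLocalRing.maximalIdeal A ^ n)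
  have hfix := (FLTAgent.GalRep.fixing_of_agree hag).1
  have h1 : π.mapMatrix (FLTAgent.GalRep.repMat ρ (g⁻¹ * σ)) = 1 := by
    rw [← map_one π.mapMatrix, ← sub_eq_zero, ← map_sub]
    refine Matrix.ext fun i j => ?_
    show π ((FLTAgent.GalRep.repMat ρ (g⁻¹ * σ) - 1) i j) = 0
    rw [Ideal.Quotient.eq_zero_iff_mem]
    have hv := h _ hfix (FLTAgent.GalRep.repBasis ρ j)
    have hr := FLTAgent.GalRep.repr_mem_of_mem_smul_top (FLTAgent.GalRep.repBasis ρ) hv i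
    rw [map_sub, Finsupp.sub_apply, ← LinearMap.toMatrix_apply, Module.Basis.repr_self] at hr
    rw [Matrix.sub_apply]
    have e1 : (1 : Matrix (Fin 2) (Fin 2) A) i j = Finsupp.single j 1 i := by
      rw [Matrix.one_apply, Finsupp.single_apply]; simp only [eq_comm]
    rw [e1]
    exact hr
  simp only [charpoly_eq_repMat, ← Matrix.charpoly_map]
  congr 1
  show π.mapMatrix (FLTAgent.GalRep.repMat ρ σ) = π.mapMatrix (FLTAgent.GalRep.repMat ρ g)
  conv_lhs => rw [show σ = g * (g⁻¹ * σ) by group]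
  rw [map_mul, map_mul, h1, mul_one]

/-- Two adic representations with equal characteristic polynomials at almost all Frobenius
elements have equal characteristic polynomials everywhere. -/
theorem charpoly_eq_of_frobenius [IsNoetherianRing A] (hd : FLTAgent.GalRep.FrobeniusDense)
    (ρ₁ ρ₂ : GaloisRepAdic A) (T : Finset ℕ)
    (h : ∀ ℓ : ℕ, ℓ.Prime → ℓ ∉ T → ∀ P : ValuationSubring (AlgebraicClosure ℚ),
      P.LiesOverPrime ℓ → ∀ σ : Γℚ, P.IsFrobeniusAt σ ℓ →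
        LinearMap.charpoly (ρ₁.ρ σ) = LinearMap.charpoly (ρ₂.ρ σ)) (g : Γℚ) :
    LinearMap.charpoly (ρ₁.ρ g) = LinearMap.charpoly (ρ₂.ρ g) := by
  refine Polynomial.ext fun i => sub_eq_zero.mp ?_
  have hmem : (LinearMap.charpoly (ρ₁.ρ g) - LinearMap.charpoly (ρ₂.ρ g)).coeff i ∈
      ⨅ n : ℕ, IsLocalRing.maximalIdeal A ^ n := by
    rw [Submodule.mem_iInf]
    intro n
    have e := eq_of_frobenius hd _ _ (isLevelFunction_charpoly ρ₁ n) (isLevelFunction_charpoly ρ₂ n)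
      T (fun ℓ hℓ hℓT P hP σ hσ => by rw [h ℓ hℓ hℓT P hP σ hσ]) g
    have e' := congrArg (fun q => q.coeff i) e
    simp only [coeff_map] at e'
    rw [coeff_sub]
    exact (Ideal.Quotient.eq).mp e'
  rw [Ideal.iInf_pow_eq_bot_of_isLocalRing _ (Ideal.IsMaximal.ne_top inferInstance), Ideal.mem_bot,
    coeff_sub] at hmem
  exact hmem

theorem charpoly_baseChangeAlong {B : Type} [CommRing B] [IsLocalRing B] (φ : A →+* B)
    (hφ : IsLocalHom φ) (ρ : GaloisRepAdic A) (g : Γℚ) :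
    LinearMap.charpoly ((ρ.baseChangeAlong φ hφ).ρ g) = (LinearMap.charpoly (ρ.ρ g)).map φ :=
  letI : Algebra A B := φ.toAlgebra
  (ρ.ρ g).charpoly_baseChange B

theorem charpoly_residual (ρ : GaloisRepAdic A) (g : Γℚ) :
    LinearMap.charpoly (ρ.residual.ρ g) =
      (LinearMap.charpoly (ρ.ρ g)).map (IsLocalRing.residue A) :=
  (ρ.ρ g).charpoly_baseChange (IsLocalRing.ResidueField A)

end FLTAgent.LevelDrop
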