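import Fermat.Agent.LevelDrop.Involution
import Fermat.Agent.LevelDrop.Compare
import Fermat.Agent.WeilPairing.Charpoly
import Fermat.Agent.Carayol.Odd
import Fermat.Agent.Torsion.Galois
import Fermat.Agent.Torsion.QBar
import Fermat.Prelude.Def_FLTPrelim_ModularRep
import Mathlib.Algebra.Algebra.Rat

/-!
# Residual representations with the characteristic polynomials of `E[p]`
-/

set_option autoImplicit false

open scoped WeierstrassCurve.Affine
open WeierstrassCurve Polynomial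

namespace FLTAgent.LevelDrop

local notation "Qbar" => AlgebraicClosure ℚ
local notation "Γℚ" => AlgebraicClosure ℚ ≃ₐ[ℚ] AlgebraicClosure ℚ

theorem involution_apply_root {c : Γℚ} (hc : c * c = 1) (hc1 : c ≠ 1) (p : ℕ) [hp : Fact p.Prime]
    (hp2 : p ≠ 2) {ζ : Qbar} (hζ : ζ ^ p = 1) : c ζ = ζ ^ (p - 1) := by
  by_cases h1 : ζ = 1
  · rw [h1, map_one, one_pow]
  have hord : orderOf ζ = p := orderOf_eq_prime hζ h1
  have hprim : IsPrimitiveRoot ζ p := hord ▸ IsPrimitiveRoot.orderOf ζ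
  obtain ⟨j, -, hj⟩ := hprim.eq_pow_of_pow_eq_one (ξ := c ζ) (by rw [← map_pow, hζ, map_one])
  have h2 : ζ ^ (j * j) = ζ ^ 1 := by
    rw [pow_mul, hj, ← map_pow, hj, apply_apply_of_involution hc, pow_one]
  rw [FLTAgent.WeilPairing.pow_eq_pow_iff hζ h1, Nat.cast_mul, Nat.cast_one] at h2
  rcases mul_self_eq_one_iff.mp h2 with h | h
  · exfalso
    refine involution_apply_root_ne hc hc1 hp.out hp2 hζ h1 ?_
    rw [← hj]
    conv_rhs => rw [← pow_one ζ]
    rw [FLTAgent.WeilPairing.pow_eq_pow_iff hζ h1, h, Nat.cast_one]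
  · rw [← hj, FLTAgent.WeilPairing.pow_eq_pow_iff hζ h1, h, Nat.cast_sub hp.out.one_le,
      ZMod.natCast_self, zero_sub, Nat.cast_one]

theorem isElliptic_rat_of_ne_zero {W : WeierstrassCurve ℤ} (hΔ : W.Δ ≠ 0) :
    (W.map (Int.castRingHom ℚ)).IsElliptic := by
  refine ⟨?_⟩
  rw [isUnit_iff_ne_zero, WeierstrassCurve.map_Δ, eq_intCast, Int.cast_ne_zero]
  exact hΔ

variable {W : WeierstrassCurve ℤ} (hΔ : W.Δ ≠ 0) (p : ℕ) [hp : Fact p.Prime]

/-- The Galois representation on `E[p]`. -/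
noncomputable def torsRep : ResidualGaloisRep (ZMod p) :=
  haveI := isElliptic_rat_of_ne_zero hΔ
  residualGaloisRepOf (W.map (Int.castRingHom ℚ)) p
    (FLTAgent.Torsion.natCard_torsionBy_qbar _ hp.out.ne_zero)
    (FLTAgent.Torsion.galoisFactorsThroughFiniteLevel_galoisRepModuleEnd _ hp.out.ne_zero)

theorem charpoly_torsRep_frobenius {ℓ : ℕ} (hℓ : ℓ.Prime) (hgood : W.IsGoodPrimeFor ℓ) (hℓp : ℓ ≠ p)
    (A : ValuationSubring Qbar) (hA : A.LiesOverPrime ℓ) (σ : Γℚ) (hσ : A.IsFrobeniusAt σ ℓ) :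
    LinearMap.charpoly ((torsRep hΔ p).ρ σ) =
      X ^ 2 - C (W.apOfModel ℓ : ZMod p) * X + C (ℓ : ZMod p) := by
  have := isElliptic_rat_of_ne_zero hΔ
  haveI : Module.Finite (ZMod p)
      (Submodule.torsionBy ℤ ((W.map (Int.castRingHom ℚ))⁄Qbar).toAffine.Point (p : ℤ)) :=
    Module.finite_of_finrank_eq_succ (FLTAgent.Torsion.finrank_torsionBy_qbar _ p)
  exact FLTAgent.WeilPairing.charpoly_frobenius p W hℓ hgood hℓp A hA σ hσ

theorem isIrreducible_torsRep (hirr : W.ModRepIsIrreducible p) :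
    (torsRep hΔ p).IsIrreducible :=
  fun U hU => hirr.2 U fun σ x hx => hU σ x hx

theorem det_torsRep_involution (hp2 : p ≠ 2) {c : Γℚ} (hc : c * c = 1) (hc1 : c ≠ 1) :
    LinearMap.det ((torsRep hΔ p).ρ c) = -1 := by
  have := isElliptic_rat_of_ne_zero hΔ
  have := FLTAgent.WeilPairing.isElliptic_qbar (W.map (Int.castRingHom ℚ))
  have h := FLTAgent.WeilPairing.det_galoisRepModuleEnd_eq_of_forall_pow
    (W.map (Int.castRingHom ℚ)).toAffine p (Nat.cast_ne_zero.mpr hp.out.ne_zero) c (p - 1)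
    (fun ζ hζ => involution_apply_root hc hc1 p hp2 hζ)
  rw [Nat.cast_sub hp.out.one_le, ZMod.natCast_self, zero_sub, Nat.cast_one] at h
  exact h

theorem isAbsolutelyIrreducible_torsRep (hp2 : p ≠ 2) (hirr : W.ModRepIsIrreducible p) :
    (torsRep hΔ p).IsAbsolutelyIrreducible := by
  refine FLTAgent.Carayol.isAbsolutelyIrreducible_of_involution _ ?_ (isIrreducible_torsRep hΔ p hirr)
    complexConjugation_mul_self
    (det_torsRep_involution hΔ p hp2 complexConjugation_mul_self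
      FLTAgent.GalRep.complexConjugation_ne_one)
  intro h
  have h2 : ((2 : ℕ) : ZMod p) = 0 := by exact_mod_cast h
  rw [ZMod.natCast_eq_zero_iff] at h2
  exact hp2 ((Nat.prime_dvd_prime_iff_eq hp.out Nat.prime_two).mp h2)

theorem coeff_zero_charpoly {k : Type} [Field k] (r : ResidualGaloisRep k) (σ : Γℚ) :
    (LinearMap.charpoly (r.ρ σ)).coeff 0 = LinearMap.det (r.ρ σ) := by
  rw [LinearMap.det_eq_sign_charpoly_coeff, r.finrank_eq, neg_one_sq, one_mul]

theorem trace_resMat {k : Type} [Field k] (r : ResidualGaloisRep k) (σ : Γℚ) :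
    (FLTAgent.Carayol.resMat r σ).trace = -(LinearMap.charpoly (r.ρ σ)).coeff 1 := by
  rw [Matrix.trace_eq_neg_charpoly_coeff, Fintype.card_fin,
    show LinearMap.charpoly (r.ρ σ) = (FLTAgent.Carayol.resMat r σ).charpoly from
      (LinearMap.charpoly_toMatrix (r.ρ σ) (FLTAgent.Carayol.resBasis r)).symm]

include hΔ in
/-- A representation with the Frobenius characteristic polynomials of `E[p]` at almost all primes
is residually absolutely irreducible and odd. -/
theorem residual_absIrred_odd (hp2 : p ≠ 2) (hirr : W.ModRepIsIrreducible p)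
    (hd : FLTAgent.GalRep.FrobeniusDense) {A : Type} [CommRing A] [IsLocalRing A]
    (hpA : (p : A) ∈ IsLocalRing.maximalIdeal A) (ρ : GaloisRepAdic A) (T : Finset ℕ) (hpT : p ∈ T)
    (hgood : ∀ ℓ : ℕ, ℓ.Prime → ℓ ∉ T → W.IsGoodPrimeFor ℓ)
    (h : ∀ ℓ : ℕ, ℓ.Prime → ℓ ∉ T → ∀ P : ValuationSubring Qbar, P.LiesOverPrime ℓ →
      ∀ σ : Γℚ, P.IsFrobeniusAt σ ℓ →
        LinearMap.charpoly (ρ.ρ σ) = X ^ 2 - C (W.apOfModel ℓ : A) * X + C (ℓ : A)) :
    ρ.residual.IsAbsolutelyIrreducible ∧ ρ.residual.IsOdd := by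
  set k := IsLocalRing.ResidueField A
  have hp0 : (p : k) = 0 := by
    rw [← map_natCast (IsLocalRing.residue A), IsLocalRing.residue_eq_zero_iff]; exact hpA
  have hchar : CharP k p := by
    rw [← CharP.charP_iff_prime_eq_zero hp.out] at hp0; exact hp0
  let φ : ZMod p →+* k := ZMod.castHom dvd_rfl k
  letI : Algebra (ZMod p) k := φ.toAlgebra
  have key : ∀ g : Γℚ, LinearMap.charpoly (ρ.residual.ρ g) =
      (LinearMap.charpoly ((torsRep hΔ p).ρ g)).map φ := by
    refine eq_of_frobenius hd _ _ ?_ ?_ T fun ℓ hℓ hℓT P hP σ hσ => ?_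
    · obtain ⟨L, hL, hfix⟩ := ρ.residual.factorsThroughFiniteLevel
      refine ⟨L, hL, fun g σ hag => ?_⟩
      simp only
      rw [show σ = g * (g⁻¹ * σ) by group, map_mul,
        hfix _ (FLTAgent.GalRep.fixing_of_agree hag).1, mul_one]
    · obtain ⟨L, hL, hfix⟩ := (torsRep hΔ p).factorsThroughFiniteLevel
      refine ⟨L, hL, fun g σ hag => ?_⟩
      simp only
      rw [show σ = g * (g⁻¹ * σ) by group, map_mul,
        hfix _ (FLTAgent.GalRep.fixing_of_agree hag).1, mul_one]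
    · rw [charpoly_residual, h ℓ hℓ hℓT P hP σ hσ,
        charpoly_torsRep_frobenius hΔ p hℓ (hgood ℓ hℓ hℓT) (fun e => hℓT (e ▸ hpT)) P hP σ hσ]
      simp only [Polynomial.map_add, Polynomial.map_sub, Polynomial.map_mul, Polynomial.map_pow,
        Polynomial.map_X, Polynomial.map_intCast, Polynomial.map_natCast, Polynomial.map_C, map_intCast, map_natCast]
  constructor
  · obtain ⟨g, hg⟩ := FLTAgent.Carayol.hasUnitGram_of_isAbsolutelyIrreducible _
      (isAbsolutelyIrreducible_torsRep hΔ p hp2 hirr)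
    refine FLTAgent.Carayol.isAbsolutelyIrreducible_of_hasUnitGram _
      (FLTAgent.Carayol.hasUnitGram_congr (ρ₁ := FLTAgent.Carayol.matHom
        (Algebra.TensorProduct.basis k (FLTAgent.Carayol.resBasis (torsRep hΔ p)))
        ((torsRep hΔ p).baseChange k).ρ) (fun σ => ?_) ⟨g, ?_⟩)
    · rw [FLTAgent.Carayol.matHom_baseChange, ← AddMonoidHom.map_trace, trace_resMat, trace_resMat,
        key, coeff_map]
      exact map_neg φ _
    · rw [FLTAgent.Carayol.gram_baseChange, ← RingHom.mapMatrix_apply, ← RingHom.map_det]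
      exact hg.map _
  · intro c hc hc1
    rw [← coeff_zero_charpoly, key, coeff_map, coeff_zero_charpoly,
      det_torsRep_involution hΔ p hp2 hc hc1, map_neg, map_one]

end FLTAgent.LevelDrop
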