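import Fermat.Prelude.Thm_IsAdicComplete_of_module_finite
import Fermat.Prelude.Thm_IsLocalRing_isAdicComplete_of_module_finite
import Mathlib.NumberTheory.Padics.RingHoms
import Mathlib.RingTheory.DedekindDomain.IntegralClosure
import Mathlib.RingTheory.DiscreteValuationRing.TFAE
import Mathlib.RingTheory.Henselian
import Mathlib.FieldTheory.IsAlgClosed.AlgebraicClosure
import Mathlib.RingTheory.Ideal.GoingUp
import Mathlib.RingTheory.Artinian.Ring

/-!
# An order embeds into a complete discrete valuation ring of any residue characteristic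
-/

set_option autoImplicit false

namespace FLTAgent.LevelDrop

/-- A finite reduced-or-not ring with only trivial idempotents is local. -/
theorem isLocalRing_of_finite {Q : Type*} [CommRing Q] [Nontrivial Q] [Finite Q]
    (h : ∀ e : Q, IsIdempotentElem e → e = 0 ∨ e = 1) : IsLocalRing Q := by
  have key : ∀ x : Q, IsUnit x ∨ IsNilpotent x := by
    intro x
    obtain ⟨a, b, hab, he⟩ := Finite.exists_ne_map_eq_of_infinite fun n : ℕ => x ^ n
    replace he : x ^ a = x ^ b := he
    wlog hlt : a < b generalizing a b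
    · exact this b a hab.symm he.symm (lt_of_le_of_ne (not_lt.mp hlt) hab.symm)
    obtain ⟨d, rfl⟩ := Nat.exists_eq_add_of_lt hlt
    have h1 : ∀ j, x ^ (a + j * (d + 1)) = x ^ a := by
      intro j
      induction j with
      | zero => simp
      | succ j ih =>
        rw [show a + (j + 1) * (d + 1) = (a + j * (d + 1)) + (d + 1) by ring, pow_add, ih,
          ← pow_add, show a + (d + 1) = a + d + 1 by ring, ← he]
    set m := (a + 1) * (d + 1) with hm
    have ham : a ≤ m := by rw [hm]; nlinarith
    have hid : IsIdempotentElem (x ^ m) := by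
      show x ^ m * x ^ m = x ^ m
      obtain ⟨r, hr⟩ := Nat.exists_eq_add_of_le ham
      conv_lhs => arg 1; rw [hr]
      rw [← pow_add, show a + r + m = (a + (a + 1) * (d + 1)) + r by rw [← hm]; ring, pow_add,
        h1, ← pow_add, ← hr]
    have hm0 : m ≠ 0 := by positivity
    rcases h _ hid with h0 | h0
    · exact Or.inr ⟨m, h0⟩
    · exact Or.inl ((isUnit_pow_iff hm0).mp (h0 ▸ isUnit_one))
  refine IsLocalRing.of_nonunits_add fun x y hx hy hu => ?_
  have hx' := (key x).resolve_left hx
  have hy' := (key y).resolve_left hy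
  exact IsUnit.not_isNilpotent hu (hx'.map (RingHom.id Q) |> fun h => (Commute.all x y).isNilpotent_add h hy')

/-- A domain finite over a complete local ring with finite residue field is local. -/
theorem isLocalRing_of_moduleFinite {p : ℕ} [Fact p.Prime] {O : Type*} [CommRing O] [IsDomain O]
    [Algebra ℤ_[p] O] [Module.Finite ℤ_[p] O] (hinj : Function.Injective (algebraMap ℤ_[p] O)) :
    IsLocalRing O ∧ IsLocalHom (algebraMap ℤ_[p] O) ∧
      Finite (O ⧸ (IsLocalRing.maximalIdeal ℤ_[p]).map (algebraMap ℤ_[p] O)) := by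
  set m := IsLocalRing.maximalIdeal ℤ_[p]
  set I := m.map (algebraMap ℤ_[p] O) with hI
  have : IsAdicComplete m O := IsAdicComplete.of_module_finite m O
  have : IsAdicComplete I O := by
    rw [hI]; exact (IsAdicComplete.map_algebraMap_iff m O).mpr inferInstance
  have hjac : I ≤ Ideal.jacobson ⊥ := IsAdicComplete.le_jacobson_bot I
  have hne : I ≠ ⊤ := fun h => by
    rw [h, top_le_iff, Ideal.jacobson_eq_top_iff] at hjac
    exact bot_ne_top hjac
  have hlochom : IsLocalHom (algebraMap ℤ_[p] O) := by
    refine ⟨fun a ha => ?_⟩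
    by_contra hna
    exact hne (Ideal.eq_top_of_isUnit_mem _ (Ideal.mem_map_of_mem _ hna) ha)
  have hfin : Finite (O ⧸ I) := by
    let _ : Algebra (ℤ_[p] ⧸ m) (O ⧸ I) := Ideal.Quotient.algebraQuotientOfLEComap Ideal.le_comap_map
    have : IsScalarTower ℤ_[p] (ℤ_[p] ⧸ m) (O ⧸ I) := IsScalarTower.of_algebraMap_eq fun _ => rfl
    have : Module.Finite (ℤ_[p] ⧸ m) (O ⧸ I) :=
      Module.Finite.of_restrictScalars_finite ℤ_[p] _ _
    have : Finite (ℤ_[p] ⧸ m) :=
      Finite.of_equiv _ (PadicInt.residueField (p := p)).symm.toEquiv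
    exact Module.finite_of_finite (ℤ_[p] ⧸ m)
  refine ⟨?_, hlochom, hfin⟩
  have : Nontrivial (O ⧸ I) := Ideal.Quotient.nontrivial_iff.mpr hne
  have hloc : IsLocalRing (O ⧸ I) := by
    refine isLocalRing_of_finite fun e he => ?_
    obtain ⟨a, rfl⟩ := Ideal.Quotient.mk_surjective e
    have he2 : Ideal.Quotient.mk I (2 * a - 1) * Ideal.Quotient.mk I (2 * a - 1) = 1 := by
      have he' : Ideal.Quotient.mk I a * Ideal.Quotient.mk I a = Ideal.Quotient.mk I a := he
      simp only [map_sub, map_mul, map_one, map_ofNat]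
      linear_combination 4 * he'
    obtain ⟨b, hb, hba⟩ := (IsAdicComplete.henselianRing O I).is_henselian
      (Polynomial.X ^ 2 - Polynomial.X) (by monicity!) a (by
        rw [← Ideal.Quotient.eq_zero_iff_mem]
        simp only [Polynomial.eval_sub, Polynomial.eval_pow, Polynomial.eval_X, map_sub, map_pow]
        rw [sq, he, sub_self])
      (by
        refine IsUnit.of_mul_eq_one (Ideal.Quotient.mk I (2 * a - 1)) ?_
        simpa [Polynomial.derivative_X_pow, map_ofNat, one_add_one_eq_two] using he2)
    rw [← Ideal.Quotient.eq] at hba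
    simp only [Polynomial.IsRoot, Polynomial.eval_sub, Polynomial.eval_pow, Polynomial.eval_X,
      sub_eq_zero, sq, Polynomial.eval_mul] at hb
    rcases eq_or_ne b 0 with rfl | hb0
    · exact Or.inl (by rw [← hba, map_zero])
    · exact Or.inr (by rw [← hba, (mul_eq_left₀ hb0).mp hb, map_one])
  have := isLocalHom_of_le_jacobson_bot I hjac
  exact RingHom.domain_isLocalRing (Ideal.Quotient.mk I)

/-- An order embeds into a complete discrete valuation ring with finite residue field of given
residue characteristic. -/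
theorem exists_dvr_embedding (R : Type) [CommRing R] [IsDomain R] [CharZero R] [Module.Finite ℤ R]
    (p : ℕ) [Fact p.Prime] :
    ∃ (O' : Type) (_ : CommRing O') (_ : IsDomain O') (_ : IsDiscreteValuationRing O')
      (_ : IsAdicComplete (IsLocalRing.maximalIdeal O') O')
      (_ : Finite (IsLocalRing.ResidueField O')) (_ : CharZero O'),
      (p : O') ∈ IsLocalRing.maximalIdeal O' ∧ ∃ iota : R →+* O', Function.Injective iota := by
  classical
  let K := AlgebraicClosure ℚ_[p]
  have : Algebra.IsAlgebraic ℤ R := Algebra.IsIntegral.isAlgebraic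
  let φ : R →ₐ[ℤ] K := IsAlgClosed.lift
  have hφ : Function.Injective φ := by
    refine (RingHom.injective_iff_ker_eq_bot φ.toRingHom).mpr ?_
    refine Ideal.eq_bot_of_comap_eq_bot (R := ℤ) (le_bot_iff.mp fun z hz => ?_)
    rw [Ideal.mem_comap, RingHom.mem_ker] at hz
    simpa using hz
  obtain ⟨G, hG⟩ := (inferInstance : Module.Finite ℤ R).fg_top
  let F := IntermediateField.adjoin ℚ_[p] ((G.image φ : Finset K) : Set K)
  have : FiniteDimensional ℚ_[p] F :=
    IntermediateField.finiteDimensional_adjoin fun x _ => Algebra.IsIntegral.isIntegral x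
  have hmemF : ∀ r : R, φ r ∈ F := by
    intro r
    have hr : r ∈ Submodule.span ℤ (G : Set R) := hG ▸ Submodule.mem_top
    induction hr using Submodule.span_induction with
    | mem x hx =>
      exact IntermediateField.subset_adjoin _ _ (Finset.mem_coe.mpr (Finset.mem_image_of_mem φ hx))
    | zero => rw [map_zero]; exact zero_mem F
    | add x y _ _ hx hy => rw [map_add]; exact add_mem hx hy
    | smul c x _ hx => rw [map_zsmul]; exact zsmul_mem hx c
  let φF : R →+* F := φ.toRingHom.codRestrict F.toSubalgebra.toSubring hmemF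
  have : Algebra.IsSeparable ℚ_[p] F := inferInstance
  let O := integralClosure ℤ_[p] F
  have : Module.Finite ℤ_[p] O := IsIntegralClosure.finite ℤ_[p] ℚ_[p] F O
  have hinjF : Function.Injective (algebraMap ℤ_[p] F) := by
    rw [IsScalarTower.algebraMap_eq ℤ_[p] ℚ_[p] F]
    exact (algebraMap ℚ_[p] F).injective.comp (IsFractionRing.injective ℤ_[p] ℚ_[p])
  have hinj : Function.Injective (algebraMap ℤ_[p] O) := fun a b h => hinjF (congrArg Subtype.val h)
  obtain ⟨hloc, hlh, hfin⟩ := isLocalRing_of_moduleFinite hinj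
  have : IsDedekindDomain O := IsIntegralClosure.isDedekindDomain ℤ_[p] ℚ_[p] F O
  have hpO : ((p : ℕ) : O) ∈ IsLocalRing.maximalIdeal O := by
    rw [← map_natCast (algebraMap ℤ_[p] O), IsLocalRing.mem_maximalIdeal]
    exact fun h => PadicInt.p_nonunit (p := p) (hlh.map_nonunit _ h)
  have : CharZero O := charZero_of_injective_algebraMap hinj
  have hnf : ¬ IsField O := fun h => by
    rw [IsLocalRing.isField_iff_maximalIdeal_eq.mp h, Ideal.mem_bot, Nat.cast_eq_zero] at hpO
    exact (Fact.out : p.Prime).ne_zero hpO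
  have : IsDiscreteValuationRing O :=
    ((IsDiscreteValuationRing.TFAE O hnf).out 0 2).mpr (by assumption)
  have : IsAdicComplete (IsLocalRing.maximalIdeal O) O :=
    IsLocalRing.isAdicComplete_of_module_finite (𝒪 := ℤ_[p]) (T := O)
  have : Finite (IsLocalRing.ResidueField O) :=
    Finite.of_surjective (Ideal.Quotient.factor (show
      (IsLocalRing.maximalIdeal ℤ_[p]).map (algebraMap ℤ_[p] O) ≤ IsLocalRing.maximalIdeal O from
        Ideal.map_le_iff_le_comap.mpr fun a ha h => ha (hlh.map_nonunit _ h)))
      (Ideal.Quotient.factor_surjective _)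
  have hint : ∀ r : R, φF r ∈ O := fun r =>
    ((Algebra.IsIntegral.isIntegral (R := ℤ) r).map φF.toIntAlgHom).tower_top
  exact ⟨O, inferInstance, inferInstance, inferInstance, inferInstance, inferInstance, inferInstance,
    hpO, φF.codRestrict O.toSubring hint,
    fun a b h => hφ (congrArg (fun x : O => ((x : F) : K)) h)⟩

end FLTAgent.LevelDrop
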