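import Fermat.Prelude.Def_FLTPrelim_Modularity
import Mathlib.Algebra.QuadraticDiscriminant
import Mathlib.Tactic

/-!
# The trivial bound `|a_q| ≤ q`
-/

set_option autoImplicit false

open WeierstrassCurve WeierstrassCurve.Affine

namespace FLTAgent.LevelDrop

theorem card_y_le_two {F : Type*} [Field F] [Finite F] (W : Affine F) (x : F) :
    Nat.card {y : F // W.Equation x y} ≤ 2 := by
  classical
  rcases isEmpty_or_nonempty {y : F // W.Equation x y} with h | ⟨⟨y₀, h₀⟩⟩
  · simp
  · have hsub : ∀ y, W.Equation x y → y = y₀ ∨ y = W.negY x y₀ := fun y hy => Y_eq_of_X_eq hy h₀ rfl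
    refine le_trans (Nat.card_le_card_of_injective
      (fun y : {y : F // W.Equation x y} => (if y.1 = y₀ then (0 : Fin 2) else 1)) ?_) (by simp)
    intro a b hab
    refine Subtype.ext ?_
    simp only at hab
    by_cases ha : a.1 = y₀ <;> by_cases hb : b.1 = y₀
    · rw [ha, hb]
    · simp [ha, hb] at hab
    · simp [ha, hb] at hab
    · exact ((hsub a.1 a.2).resolve_left ha).trans ((hsub b.1 b.2).resolve_left hb).symm

theorem card_point_le {F : Type*} [Field F] [Finite F] (W : WeierstrassCurve F) :
    W.card ≤ 2 * Nat.card F + 1 := by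
  classical
  let f : W.toAffine.Point → Option (Σ x : F, {y : F // W.toAffine.Equation x y})
    | .zero => none
    | .some x y h => some ⟨x, y, h.1⟩
  have hf : Function.Injective f := by
    rintro (_ | ⟨x, y, hxy⟩) (_ | ⟨x', y', hxy'⟩) h
    · rfl
    · simp [f] at h
    · simp [f] at h
    · simp only [f, Option.some.injEq] at h
      cases h
      rfl
  have := Fintype.ofFinite F
  refine (Nat.card_le_card_of_injective f hf).trans ?_
  rw [Finite.card_option, Nat.card_sigma, Nat.card_eq_fintype_card (α := F)]
  gcongr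
  refine (Finset.sum_le_card_nsmul _ _ 2 fun x _ => card_y_le_two W.toAffine x).trans (le_of_eq ?_)
  rw [smul_eq_mul, Finset.card_univ, mul_comm]

theorem abs_apOfModel_le (W : WeierstrassCurve ℤ) {q : ℕ} (hq : q.Prime) :
    |W.apOfModel q| ≤ q := by
  have : Fact q.Prime := ⟨hq⟩
  have h1 : (W.reductionMod q).card ≤ 2 * q + 1 := by
    have := card_point_le (W.reductionMod q)
    rwa [Nat.card_zmod] at this
  have h0 : 0 < (W.reductionMod q).card := by
    unfold WeierstrassCurve.card
    exact Nat.card_pos
  simp only [WeierstrassCurve.apOfModel, WeierstrassCurve.traceOfFrobenius, Nat.card_zmod]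
  rw [abs_le]
  constructor <;> omega

end FLTAgent.LevelDrop
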