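import Fermat.Agent.LevelDrop.Inputs
import Fermat.Agent.LevelDrop.Residual
import Fermat.Agent.LevelDrop.Embed
import Fermat.Agent.LevelDrop.PointBound
import Fermat.Agent.Oldform.Raise
import Fermat.Agent.Tate.Rep
import Fermat.Agent.IntegralStructure.HeckeFinite
import Fermat.Agent.Frobenius.Places
import Fermat.Prelude.Def_WeierstrassCurve_ConductorLevel
import Mathlib.Algebra.Algebra.Rat

/-!
# From modularity at a cube-free level to modularity at the conductor level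
-/

set_option autoImplicit false

open WeierstrassCurve Polynomial

namespace FLTAgent.LevelDrop

local notation "Qbar" => AlgebraicClosure ℚ
local notation "Γℚ" => AlgebraicClosure ℚ ≃ₐ[ℚ] AlgebraicClosure ℚ

theorem exists_padicBase (lam : ℕ) [Fact lam.Prime] (A : Type) [CommRing A] [IsLocalRing A]
    [IsAdicComplete (IsLocalRing.maximalIdeal A) A] (h : (lam : A) ∈ IsLocalRing.maximalIdeal A) :
    ∃ ψ : ℤ_[lam] →+* A, IsLocalHom ψ := by
  obtain ⟨ψ⟩ := FLTAgent.GalRep.exists_padicHom lam A h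
  refine ⟨ψ, ⟨fun x hx => ?_⟩⟩
  by_contra hxu
  have hxm : x ∈ IsLocalRing.maximalIdeal ℤ_[lam] := hxu
  rw [PadicInt.maximalIdeal_eq_span_p, Ideal.mem_span_singleton] at hxm
  obtain ⟨y, rfl⟩ := hxm
  rw [map_mul, map_natCast] at hx
  exact h (isUnit_of_mul_isUnit_left hx)

variable {W : WeierstrassCurve ℤ} (hΔ : W.Δ ≠ 0)

theorem X_sq_coeff_one {A : Type} [CommRing A] (a b : A) :
    (X ^ 2 - C a * X + C b : A[X]).coeff 1 = -a := by
  simp [coeff_X_pow, coeff_C]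

include hΔ in
/-- A representation with the Frobenius polynomials of `W` almost everywhere has the characteristic
polynomials of the Tate module. -/
theorem charpoly_eq_tate (hd : FLTAgent.GalRep.FrobeniusDense) (lam : ℕ) [Fact lam.Prime]
    {A : Type} [CommRing A] [IsLocalRing A] [IsNoetherianRing A] {ψ : ℤ_[lam] →+* A}
    (hψ : IsLocalHom ψ) (ρ : GaloisRepAdic A) (T : Finset ℕ) (hlamT : lam ∈ T)
    (hgood : ∀ ℓ : ℕ, ℓ.Prime → ℓ ∉ T → W.IsGoodPrimeFor ℓ)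
    (h : ∀ ℓ : ℕ, ℓ.Prime → ℓ ∉ T → ∀ P : ValuationSubring Qbar, P.LiesOverPrime ℓ →
      ∀ σ : Γℚ, P.IsFrobeniusAt σ ℓ →
        LinearMap.charpoly (ρ.ρ σ) = X ^ 2 - C (W.apOfModel ℓ : A) * X + C (ℓ : A)) (g : Γℚ) :
    LinearMap.charpoly (ρ.ρ g) =
      (LinearMap.charpoly ((FLTAgent.Tate.tateRep hΔ lam).ρ g)).map ψ := by
  rw [charpoly_eq_of_frobenius hd ρ ((FLTAgent.Tate.tateRep hΔ lam).baseChangeAlong ψ hψ) T
    (fun ℓ hℓ hℓT P hP σ hσ => ?_) g, charpoly_baseChangeAlong]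
  rw [charpoly_baseChangeAlong, h ℓ hℓ hℓT P hP σ hσ,
    FLTAgent.Tate.charpoly_frobenius hΔ lam hℓ (hgood ℓ hℓ hℓT) (fun e => hℓT (e ▸ hlamT)) P hP σ hσ]
  simp only [Polynomial.map_add, Polynomial.map_sub, Polynomial.map_mul, Polynomial.map_pow,
    Polynomial.map_X, Polynomial.map_C, Polynomial.map_intCast, Polynomial.map_natCast, map_intCast,
    map_natCast]

section Newform

variable {N M : ℕ} [NeZero M] {g : CuspForm (CongruenceSubgroup.Gamma0 M) 2}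

theorem chig_value {S : Finset ℕ} (chig : CuspForm.heckeAlgebra M 2 (↑S : Set ℕ) →+* ℂ)
    {O' : Type} [CommRing O'] (iota : chig.range →+* O') {t : CuspForm.heckeAlgebra M 2 (↑S : Set ℕ)}
    {a : ℤ} (h : chig t = (a : ℂ)) : (iota.comp chig.rangeRestrict) t = (a : O') := by
  have e : chig.rangeRestrict t = (a : chig.range) := by
    refine Subtype.ext ?_
    rw [RingHom.coe_rangeRestrict, h]
    simp
  rw [RingHom.comp_apply, e, map_intCast]

theorem exists_coefficient_ring (hg : g.IsNormalizedEigenform) (S : Finset ℕ) (lam : ℕ)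
    [Fact lam.Prime] :
    ∃ (chig : CuspForm.heckeAlgebra M 2 (↑S : Set ℕ) →+* ℂ) (O' : Type) (_ : CommRing O')
      (_ : IsDomain O') (_ : IsDiscreteValuationRing O')
      (_ : IsAdicComplete (IsLocalRing.maximalIdeal O') O')
      (_ : Finite (IsLocalRing.ResidueField O')) (_ : CharZero O') (iota : chig.range →+* O'),
      (lam : O') ∈ IsLocalRing.maximalIdeal O' ∧ Function.Injective iota ∧
      ∀ (ℓ : ℕ) (hℓ : ℓ.Prime) (hℓM : ¬ ℓ ∣ M) (hℓS : ℓ ∉ (↑S : Set ℕ)),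
        chig (CuspForm.heckeAlgebra.T hℓ hℓM hℓS) = ModularFormClass.qCoeff g ℓ := by
  set chig := FLTAgent.Quick.eigenformChar hg (↑S : Set ℕ)
  have := FLTAgent.IntegralStructure.moduleFinite_heckeAlgebra (N := M) 2 (↑S : Set ℕ)
  have : Module.Finite ℤ chig.range :=
    Module.Finite.of_surjective chig.rangeRestrict.toIntAlgHom.toLinearMap
      chig.rangeRestrict_surjective
  obtain ⟨O', i1, i2, i3, i4, i5, i6, hlam, iota, hiota⟩ := exists_dvr_embedding chig.range lam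
  exact ⟨chig, O', i1, i2, i3, i4, i5, i6, iota, hlam, hiota,
    fun ℓ hℓ hℓM hℓS => FLTAgent.Quick.eigenformChar_T hg hℓ hℓM hℓS⟩

variable (hgN : ∀ ℓ : ℕ, ℓ.Prime → W.IsGoodPrimeFor ℓ → ¬ ℓ ∣ N →
    ModularFormClass.qCoeff g ℓ = (W.apOfModel ℓ : ℂ))
  (hMN : M ∣ N) (hN0 : N ≠ 0) (hbad : ∀ ℓ : ℕ, ℓ.Prime → (ℓ : ℤ) ∣ W.Δ → ℓ ∣ N)
  (hd : FLTAgent.GalRep.FrobeniusDense)

include hMN hN0 hbad in
theorem outside_insert {lam ℓ : ℕ} (hℓ : ℓ.Prime) (hℓT : ℓ ∉ insert lam N.primeFactors) :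
    W.IsGoodPrimeFor ℓ ∧ ¬ ℓ ∣ N ∧ ¬ ℓ ∣ M ∧ ℓ ≠ lam ∧
      ℓ ∉ (↑(insert lam M.primeFactors) : Set ℕ) := by
  simp only [Finset.mem_insert, not_or] at hℓT
  have hN : ¬ ℓ ∣ N := fun h => hℓT.2 (Nat.mem_primeFactors.mpr ⟨hℓ, h, hN0⟩)
  refine ⟨fun h => hN (hbad ℓ hℓ h), hN, fun h => hN (h.trans hMN), hℓT.1, ?_⟩
  simp only [Finset.coe_insert, Set.mem_insert_iff, Finset.mem_coe, Nat.mem_primeFactors, not_or]
  exact ⟨hℓT.1, fun h => hN (h.2.1.trans hMN)⟩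

include hgN hMN hN0 hbad in
theorem frobenius_formula {lam : ℕ}
    {chig : CuspForm.heckeAlgebra M 2 (↑(insert lam M.primeFactors) : Set ℕ) →+* ℂ}
    (hchig : ∀ (ℓ : ℕ) (hℓ : ℓ.Prime) (hℓM : ¬ ℓ ∣ M)
      (hℓS : ℓ ∉ (↑(insert lam M.primeFactors) : Set ℕ)),
      chig (CuspForm.heckeAlgebra.T hℓ hℓM hℓS) = ModularFormClass.qCoeff g ℓ)
    {O' O'' : Type} [CommRing O'] [CommRing O''] [IsLocalRing O''] [Algebra O' O'']
    (iota : chig.range →+* O') (ρ : GaloisRepAdic O'')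
    (h : ∀ (ℓ : ℕ) (hℓ : ℓ.Prime) (hℓM : ¬ ℓ ∣ M)
      (hℓS : ℓ ∉ (↑(insert lam M.primeFactors) : Set ℕ)), ℓ ≠ lam →
      ∀ A : ValuationSubring Qbar, A.LiesOverPrime ℓ → ∀ σ : Γℚ, A.IsFrobeniusAt σ ℓ →
        LinearMap.charpoly (ρ.ρ σ) = X ^ 2 - C (algebraMap O' O''
          ((iota.comp chig.rangeRestrict) (CuspForm.heckeAlgebra.T hℓ hℓM hℓS))) * X + C (ℓ : O''))
    (ℓ : ℕ) (hℓ : ℓ.Prime) (hℓT : ℓ ∉ insert lam N.primeFactors)
    (P : ValuationSubring Qbar) (hP : P.LiesOverPrime ℓ) (σ : Γℚ) (hσ : P.IsFrobeniusAt σ ℓ) :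
    LinearMap.charpoly (ρ.ρ σ) = X ^ 2 - C (W.apOfModel ℓ : O'') * X + C (ℓ : O'') := by
  obtain ⟨hgood, hlN, hlM, hne, hlS⟩ := outside_insert hMN hN0 hbad hℓ hℓT
  have e : chig (CuspForm.heckeAlgebra.T hℓ hlM hlS) = ((W.apOfModel ℓ : ℤ) : ℂ) := by
    rw [hchig, hgN ℓ hℓ hgood hlN]
  rw [h ℓ hℓ hlM hlS hne P hP σ hσ, chig_value chig iota e, map_intCast]

variable (hg : g.IsNewform)

include hΔ hgN hMN hN0 hbad hd hg

theorem not_sq_dvd (h36 : NewformRamifiedAtSquare) (hss : W.IsSemistableModel) (p : ℕ)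
    [hp : Fact p.Prime] (hp2 : p ≠ 2) (hirr : W.ModRepIsIrreducible p) (hp2N : ¬ p ^ 2 ∣ N)
    (hN3 : ∀ q : ℕ, q.Prime → ¬ q ^ 3 ∣ N) (q : ℕ) (hq : q.Prime) : ¬ q ^ 2 ∣ M := by
  intro hq2
  have hqp : q ≠ p := fun e => hp2N (e ▸ hq2.trans hMN)
  have hfac : M.factorization q = 2 := by
    have h2 := (hq.pow_dvd_iff_le_factorization (NeZero.ne M)).mp hq2
    have h3 : ¬ 3 ≤ M.factorization q := fun h3 =>
      hN3 q hq (((hq.pow_dvd_iff_le_factorization (NeZero.ne M)).mpr h3).trans hMN)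
    omega
  obtain ⟨chig, O', _, _, _, _, _, _, iota, hlam, -, hchig⟩ :=
    exists_coefficient_ring hg.isNormalizedEigenform (insert p M.primeFactors) p
  have hgoodT : ∀ ℓ : ℕ, ℓ.Prime → ℓ ∉ insert p N.primeFactors → W.IsGoodPrimeFor ℓ :=
    fun ℓ hℓ hℓT => (outside_insert (M := M) hMN hN0 hbad hℓ hℓT).1
  obtain ⟨O'', _, _, _, _, _, _, _, _, hloc, -, ρ, hρ, hram⟩ :=
    h36 hg p (insert p M.primeFactors) O' hlam hp2 chig hchig iota (Finset.mem_insert_self _ _)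
      (fun r hr hrM => Finset.mem_insert_of_mem (Nat.mem_primeFactors.mpr ⟨hr, hrM, NeZero.ne M⟩))
      (fun R _ _ _ _ _ _ _ _ hlocR _ ρ hρ => by
        have hpR : (p : R) ∈ IsLocalRing.maximalIdeal R := by
          rw [← map_natCast (algebraMap O' R)]
          exact fun hu => hlam (hlocR.map_nonunit _ hu)
        exact residual_absIrred_odd hΔ p hp2 hirr hd hpR ρ (insert p N.primeFactors)
          (Finset.mem_insert_self _ _) hgoodT
          (frobenius_formula hgN hMN hN0 hbad hchig iota ρ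
            fun ℓ hℓ hℓM hℓS hne => hρ ℓ hℓ hne hℓM hℓS))
  have hp'' : (p : O'') ∈ IsLocalRing.maximalIdeal O'' := by
    rw [← map_natCast (algebraMap O' O'')]
    exact fun hu => hlam (hloc.map_nonunit _ hu)
  obtain ⟨ψ, hψ⟩ := exists_padicBase p O'' hp''
  refine hram q hq hqp hfac fun A hA σ hσ => ?_
  rw [charpoly_eq_tate hΔ hd p hψ ρ (insert p N.primeFactors) (Finset.mem_insert_self _ _) hgoodT
    (frobenius_formula hgN hMN hN0 hbad hchig iota ρ fun ℓ hℓ hℓM hℓS _ => hρ ℓ hℓ hℓM hℓS) σ,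
    FLTAgent.Tate.isUnipotentOnInertiaAt hΔ p hss hq hqp A hA σ hσ]
  simp only [Polynomial.map_pow, Polynomial.map_sub, Polynomial.map_X, Polynomial.map_one]

theorem bad_of_dvd (h35 : NewformSpecialCharpoly) (q : ℕ) (hq : q.Prime) (hqM : q ∣ M)
    (hq2 : ¬ q ^ 2 ∣ M) : (q : ℤ) ∣ W.Δ := by
  by_contra hgood
  obtain ⟨lam, hlamP, hne⟩ : ∃ lam : ℕ, lam.Prime ∧ q ≠ lam := by
    rcases eq_or_ne q 2 with h | h
    · exact ⟨3, Nat.prime_three, by omega⟩
    · exact ⟨2, Nat.prime_two, h⟩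
  have : Fact lam.Prime := ⟨hlamP⟩
  obtain ⟨chig, O', _, _, _, _, _, _, iota, hlam, -, hchig⟩ :=
    exists_coefficient_ring hg.isNormalizedEigenform (insert lam M.primeFactors) lam
  obtain ⟨O'', _, _, _, _, _, _, _, _, hloc, -, ρ, hρ, hspec⟩ :=
    h35 hg lam (insert lam M.primeFactors) O' hlam chig hchig iota (Finset.mem_insert_self _ _)
      (fun r hr hrM => Finset.mem_insert_of_mem (Nat.mem_primeFactors.mpr ⟨hr, hrM, NeZero.ne M⟩))
  have hl'' : (lam : O'') ∈ IsLocalRing.maximalIdeal O'' := by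
    rw [← map_natCast (algebraMap O' O'')]
    exact fun hu => hlam (hloc.map_nonunit _ hu)
  obtain ⟨ψ, hψ⟩ := exists_padicBase lam O'' hl''
  obtain ⟨A, σ, hA, hσ⟩ := FLTAgent.Frobenius.exists_liesOverPrime_isFrobeniusAt hq
  have key := charpoly_eq_tate hΔ hd lam hψ ρ (insert lam N.primeFactors)
    (Finset.mem_insert_self _ _) (fun ℓ hℓ hℓT => (outside_insert (M := M) hMN hN0 hbad hℓ hℓT).1)
    (frobenius_formula hgN hMN hN0 hbad hchig iota ρ fun ℓ hℓ hℓM hℓS _ => hρ ℓ hℓ hℓM hℓS) σ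
  rw [FLTAgent.Tate.charpoly_frobenius hΔ lam hq hgood hne A hA σ hσ] at key
  have hb := abs_le.mp (abs_apOfModel_le W hq)
  rcases hspec q hq hne hqM hq2 A hA σ hσ with h | h
  · have e := congrArg (fun f => f.coeff 1) (h.symm.trans key)
    simp only [coeff_map, X_sq_coeff_one] at e
    simp only [map_neg, neg_inj, map_intCast] at e
    have e' : ((W.apOfModel q : ℤ) : O'') = ((q + 1 : ℤ) : O'') := by rw [← e]; push_cast; rfl
    have := Int.cast_injective e'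
    omega
  · have h' : X ^ 2 + C ((q : O'') + 1) * X + C (q : O'') =
        X ^ 2 - C (-((q : O'') + 1)) * X + C (q : O'') := by rw [map_neg]; ring
    rw [h'] at h
    have e := congrArg (fun f => f.coeff 1) (h.symm.trans key)
    simp only [coeff_map, X_sq_coeff_one] at e
    simp only [map_neg, neg_inj, map_intCast] at e
    have e' : ((W.apOfModel q : ℤ) : O'') = ((-(q + 1) : ℤ) : O'') := by
      rw [← e]; push_cast; rfl
    have := Int.cast_injective e'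
    omega

theorem qCoeff_eq_of_good (h35 : NewformSpecialCharpoly) (ℓ : ℕ) (hℓ : ℓ.Prime)
    (hgood : W.IsGoodPrimeFor ℓ) (hℓM : ¬ ℓ ∣ M) :
    ModularFormClass.qCoeff g ℓ = (W.apOfModel ℓ : ℂ) := by
  obtain ⟨lam, hlamP, hne⟩ : ∃ lam : ℕ, lam.Prime ∧ ℓ ≠ lam := by
    rcases eq_or_ne ℓ 2 with h | h
    · exact ⟨3, Nat.prime_three, by omega⟩
    · exact ⟨2, Nat.prime_two, h⟩
  have : Fact lam.Prime := ⟨hlamP⟩
  obtain ⟨chig, O', _, _, _, _, _, _, iota, hlam, hiota, hchig⟩ :=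
    exists_coefficient_ring hg.isNormalizedEigenform (insert lam M.primeFactors) lam
  obtain ⟨O'', _, _, _, _, _, _, _, _, hloc, hinj, ρ, hρ, -⟩ :=
    h35 hg lam (insert lam M.primeFactors) O' hlam chig hchig iota (Finset.mem_insert_self _ _)
      (fun r hr hrM => Finset.mem_insert_of_mem (Nat.mem_primeFactors.mpr ⟨hr, hrM, NeZero.ne M⟩))
  have hl'' : (lam : O'') ∈ IsLocalRing.maximalIdeal O'' := by
    rw [← map_natCast (algebraMap O' O'')]
    exact fun hu => hlam (hloc.map_nonunit _ hu)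
  obtain ⟨ψ, hψ⟩ := exists_padicBase lam O'' hl''
  have hℓS : ℓ ∉ (↑(insert lam M.primeFactors) : Set ℕ) := by
    simp only [Finset.coe_insert, Set.mem_insert_iff, Finset.mem_coe, Nat.mem_primeFactors, not_or]
    exact ⟨hne, fun h => hℓM h.2.1⟩
  obtain ⟨A, σ, hA, hσ⟩ := FLTAgent.Frobenius.exists_liesOverPrime_isFrobeniusAt hℓ
  have key := charpoly_eq_tate hΔ hd lam hψ ρ (insert lam N.primeFactors)
    (Finset.mem_insert_self _ _) (fun r hr hrT => (outside_insert (M := M) hMN hN0 hbad hr hrT).1)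
    (frobenius_formula hgN hMN hN0 hbad hchig iota ρ fun r hr hrM hrS _ => hρ r hr hrM hrS) σ
  rw [hρ ℓ hℓ hℓM hℓS A hA σ hσ, FLTAgent.Tate.charpoly_frobenius hΔ lam hℓ hgood hne A hA σ hσ]
    at key
  have e := congrArg (fun f => f.coeff 1) key
  simp only [coeff_map, X_sq_coeff_one] at e
  simp only [map_neg, neg_inj, map_intCast] at e
  rw [← map_intCast (algebraMap O' O''), RingHom.comp_apply, ← map_intCast iota] at e
  have e' := congrArg Subtype.val (hiota (hinj e))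
  rw [RingHom.coe_rangeRestrict, hchig] at e'
  rw [e']
  simp

end Newform

/-- A minimal level for the good eigensystem of `f` carries a newform. -/
theorem exists_newform {N : ℕ} (hN : N ≠ 0) {f : CuspForm (CongruenceSubgroup.Gamma0 N) 2}
    (hf : f.IsNormalizedEigenform) :
    ∃ (M : ℕ) (g : CuspForm (CongruenceSubgroup.Gamma0 M) 2), M ∣ N ∧ g.IsNewform ∧
      ∀ ℓ : ℕ, ℓ.Prime → ¬ ℓ ∣ N →
        ModularFormClass.qCoeff g ℓ = ModularFormClass.qCoeff f ℓ := by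
  classical
  have hex : ∃ M, M ∣ N ∧ CuspForm.GoodEigensystemOccursAt f M :=
    ⟨N, dvd_rfl, CuspForm.GoodEigensystemOccursAt.refl hf⟩
  obtain ⟨hMN, g, hg, hag⟩ := Nat.find_spec hex
  refine ⟨Nat.find hex, g, hMN, ⟨hg, fun M' hM' hne hocc => ?_⟩, hag⟩
  obtain ⟨h, hh, hag'⟩ := hocc
  have h0 : Nat.find hex ≠ 0 := fun e => hN (zero_dvd_iff.mp (e ▸ hMN))
  exact Nat.find_min hex (lt_of_le_of_ne (Nat.le_of_dvd (Nat.pos_of_ne_zero h0) hM') hne)
    ⟨hM'.trans hMN, h, hh, fun ℓ hℓ hℓN =>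
      (hag' ℓ hℓ fun hd => hℓN (hd.trans hMN)).trans (hag ℓ hℓ hℓN)⟩

/-- Level descent to the conductor level (the statement S58, from the two inputs and Chebotarev). -/
theorem isModularModelOfLevel_conductorLevel (hd : FLTAgent.GalRep.FrobeniusDense)
    (h35 : NewformSpecialCharpoly) (h36 : NewformRamifiedAtSquare)
    (W : WeierstrassCurve ℤ) (hss : W.IsSemistableModel) (N : ℕ)
    (p : ℕ) [Fact p.Prime] (hp2 : p ≠ 2) (hirr : W.ModRepIsIrreducible p)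
    (hp2N : ¬ p ^ 2 ∣ N)
    (hN : W.IsModularModelOfLevel N) (hbad : ∀ ℓ : ℕ, ℓ.Prime → (ℓ : ℤ) ∣ W.Δ → ℓ ∣ N)
    (hN3 : ∀ q : ℕ, q.Prime → ¬ q ^ 3 ∣ N) :
    W.IsModularModelOfLevel W.conductorLevel := by
  have hN0 : N ≠ 0 := fun e => hN3 2 Nat.prime_two (e ▸ dvd_zero _)
  have hΔ : W.Δ ≠ 0 := fun e => by
    obtain ⟨ℓ, hℓN, hℓ⟩ := Nat.exists_infinite_primes (N + 1)
    have := Nat.le_of_dvd (Nat.pos_of_ne_zero hN0) (hbad ℓ hℓ (e ▸ dvd_zero _))
    omega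
  obtain ⟨f, hf, hfW⟩ := hN
  obtain ⟨M, g, hMN, hg, hag⟩ := exists_newform hN0 hf
  have : NeZero M := ⟨fun e => hN0 (zero_dvd_iff.mp (e ▸ hMN))⟩
  have hgN : ∀ ℓ : ℕ, ℓ.Prime → W.IsGoodPrimeFor ℓ → ¬ ℓ ∣ N →
      ModularFormClass.qCoeff g ℓ = (W.apOfModel ℓ : ℂ) := fun ℓ hℓ hgood hℓN =>
    (hag ℓ hℓ hℓN).trans (hfW ℓ hℓ hgood hℓN)
  have hsqM : ∀ q : ℕ, q.Prime → ¬ q ^ 2 ∣ M :=
    not_sq_dvd hΔ hgN hMN hN0 hbad hd hg h36 hss p hp2 hirr hp2N hN3
  have hMR : M ∣ W.conductorLevel := by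
    have hsq : Squarefree M := Nat.squarefree_iff_prime_squarefree.mpr fun q hq h =>
      hsqM q hq (by rwa [pow_two])
    rw [← Nat.prod_primeFactors_of_squarefree hsq]
    refine Finset.prod_primes_dvd _ (fun q hq => (Nat.prime_of_mem_primeFactors hq).prime)
      fun q hq => ?_
    obtain ⟨hqP, hqM, -⟩ := Nat.mem_primeFactors.mp hq
    exact (W.prime_dvd_conductorLevel_iff hΔ hqP).mpr
      (bad_of_dvd hΔ hgN hMN hN0 hbad hd hg h35 q hqP hqM (hsqM q hqP))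
  obtain ⟨h, hh, hhg⟩ := FLTAgent.Oldform.exists_raise_dvd hMR W.squarefree_conductorLevel
    hg.isNormalizedEigenform
  refine ⟨h, hh, fun ℓ hℓ hgood hℓR => ?_⟩
  rw [hhg ℓ hℓ hℓR]
  exact qCoeff_eq_of_good hΔ hgN hMN hN0 hbad hd hg h35 ℓ hℓ hgood fun hd' => hℓR (hd'.trans hMR)

end FLTAgent.LevelDrop
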