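import Fermat.Agent.LevelDrop.Core
import Fermat.Agent.Chebotarev.Main

/-!
# Level descent from the two newform inputs
-/

set_option autoImplicit false

namespace FLTAgent.LevelDrop

/-- Chebotarev in the form used for comparing representations. -/
theorem frobeniusDense : FLTAgent.GalRep.FrobeniusDense := fun L hL g S => by
  haveI := hL
  obtain ⟨l, hl, hlS, A, hA, -, φ, hφ, hag⟩ :=
    FLTAgent.Chebotarev.exists_frobenius_eqOn L g S
  exact ⟨l, hl, hlS, A, hA, φ, hφ, hag⟩

open WeierstrassCurve in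
/-- The statement S58 from the statements of S35 and S36. -/
theorem levelDescent (h35 : NewformSpecialCharpoly) (h36 : NewformRamifiedAtSquare)
    (W : WeierstrassCurve ℤ) (hss : W.IsSemistableModel) (N : ℕ)
    (p : ℕ) [Fact p.Prime] (hp2 : p ≠ 2) (hirr : W.ModRepIsIrreducible p)
    (hp2N : ¬ p ^ 2 ∣ N)
    (hN : W.IsModularModelOfLevel N) (hbad : ∀ ℓ : ℕ, ℓ.Prime → (ℓ : ℤ) ∣ W.Δ → ℓ ∣ N)
    (hN3 : ∀ q : ℕ, q.Prime → ¬ q ^ 3 ∣ N) :
    W.IsModularModelOfLevel W.conductorLevel :=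
  isModularModelOfLevel_conductorLevel frobeniusDense h35 h36 W hss N p hp2 hirr hp2N hN hbad hN3

end FLTAgent.LevelDrop
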