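import Mathlib.FieldTheory.IsAlgClosed.AlgebraicClosure
import Mathlib.Algebra.Algebra.Rat
import Mathlib.Algebra.Ring.GeomSum
import Mathlib.Tactic

/-!
# A nontrivial involution of `ℚ̄` inverts the roots of unity of odd prime order
-/

set_option autoImplicit false

namespace FLTAgent.LevelDrop

local notation "Qbar" => AlgebraicClosure ℚ

variable {c : AlgebraicClosure ℚ ≃ₐ[ℚ] AlgebraicClosure ℚ}

theorem apply_apply_of_involution (hc : c * c = 1) (x : Qbar) : c (c x) = x := by
  rw [← AlgEquiv.mul_apply, hc]; rfl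

theorem exists_sqrt_neg_one (hc : c * c = 1) (hc1 : c ≠ 1) :
    ∃ I : Qbar, I * I = -1 ∧ c I = -I := by
  obtain ⟨I, hI⟩ := IsAlgClosed.exists_eq_mul_self (-1 : Qbar)
  refine ⟨I, hI.symm, ?_⟩
  have hcI : c I * c I = I * I := by rw [← map_mul, ← hI, map_neg, map_one]
  rcases mul_self_eq_mul_self_iff.mp hcI with h | h
  · exfalso
    apply hc1
    refine AlgEquiv.ext fun x => ?_
    show c x = x
    obtain ⟨b, hb⟩ := IsAlgClosed.exists_eq_mul_self (x - c x)
    have h2 : c b * c b = (I * b) * (I * b) := by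
      rw [← map_mul, ← hb, map_sub, apply_apply_of_involution hc,
        show I * b * (I * b) = (I * I) * (b * b) by ring, ← hI, ← hb]
      ring
    have h3 : c (c b) = b := apply_apply_of_involution hc b
    have hb0 : b = 0 := by
      rcases mul_self_eq_mul_self_iff.mp h2 with e | e
      · rw [e, map_mul, h, e, ← mul_assoc, ← hI] at h3
        linear_combination (-1 / 2 : Qbar) * h3
      · rw [e, map_neg, map_mul, h, e, mul_neg, neg_neg, ← mul_assoc, ← hI] at h3
        linear_combination (-1 / 2 : Qbar) * h3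
    rw [hb0, mul_zero] at hb
    exact (sub_eq_zero.mp hb).symm
  · exact h

theorem exists_fixed_sum_mul_self (hc : c * c = 1) (hc1 : c ≠ 1) {ι : Type*} (s : Finset ι)
    (x : ι → Qbar) (hx : ∀ i ∈ s, c (x i) = x i) :
    ∃ z, c z = z ∧ z * z = ∑ i ∈ s, x i * x i := by
  classical
  obtain ⟨I, hI, hcI⟩ := exists_sqrt_neg_one hc hc1
  induction s using Finset.induction with
  | empty => exact ⟨0, map_zero c, by simp⟩
  | insert a s ha ih =>
    obtain ⟨y, hy, hys⟩ := ih fun i hi => hx i (Finset.mem_insert_of_mem hi)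
    obtain ⟨w, hw⟩ := IsAlgClosed.exists_eq_mul_self (x a + I * y)
    refine ⟨w * c w, by rw [map_mul, apply_apply_of_involution hc, mul_comm], ?_⟩
    rw [Finset.sum_insert ha, ← hys, show w * c w * (w * c w) = (w * w) * (c w * c w) by ring,
      ← map_mul, ← hw, map_add, map_mul, hcI, hy, hx a (Finset.mem_insert_self _ _)]
    linear_combination (-(y * y)) * hI

/-- A nontrivial involution moves every nontrivial root of unity of odd prime order. -/
theorem involution_apply_root_ne (hc : c * c = 1) (hc1 : c ≠ 1) {p : ℕ} (hp : p.Prime) (hp2 : p ≠ 2)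
    {ζ : Qbar} (hζ : ζ ^ p = 1) (hζ1 : ζ ≠ 1) : c ζ ≠ ζ := by
  intro hfix
  obtain ⟨I, hI, hcI⟩ := exists_sqrt_neg_one hc hc1
  obtain ⟨m, rfl⟩ := hp.odd_of_ne_two hp2
  obtain ⟨z, hz, hzz⟩ := exists_fixed_sum_mul_self hc hc1 (Finset.Ico 1 (2 * m + 1))
    (fun j => ζ ^ (j * (m + 1))) fun i _ => by rw [map_pow, hfix]
  have hsum : ∀ j : ℕ, ζ ^ (j * (m + 1)) * ζ ^ (j * (m + 1)) = ζ ^ j := fun j => by
    rw [← pow_add, show j * (m + 1) + j * (m + 1) = (2 * m + 1) * j + j by ring, pow_add, pow_mul,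
      hζ, one_pow, one_mul]
  simp only [hsum] at hzz
  have hgeom : ∑ j ∈ Finset.range (2 * m + 1), ζ ^ j = 0 := by
    have h := geom_sum_mul ζ (2 * m + 1)
    rw [hζ, sub_self, mul_eq_zero] at h
    exact h.resolve_right (sub_ne_zero.mpr hζ1)
  rw [Finset.range_eq_Ico, Finset.sum_eq_sum_Ico_succ_bot (Nat.succ_pos _), pow_zero] at hgeom
  have hzI : z * z = I * I := by rw [hI, hzz]; linear_combination hgeom
  have hI0 : I ≠ 0 := fun h => by rw [h, mul_zero] at hI; exact neg_ne_zero.mpr one_ne_zero hI.symm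
  rcases mul_self_eq_mul_self_iff.mp hzI with h | h
  · rw [h, hcI] at hz
    exact hI0 (by linear_combination (-1 / 2 : Qbar) * hz)
  · rw [h, map_neg, hcI, neg_neg] at hz
    exact hI0 (by linear_combination (1 / 2 : Qbar) * hz)

end FLTAgent.LevelDrop
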